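/-
S56, node [GW-EC], cell [EC-MULT] (prefix `s56emg_`, Mathlib only), part II.

(General-group copy of `Mult/Mu.lean`, with the connecting map of the snake lemma built by hand.)
For a `Λ = ℤ[C]`-module `T` put `K T := T[p]`, `Q T := T / p T`,
`a T := #Hom_Λ(X, Q T)`, `b T := #Hom_Λ(X, K T)` and `μ T := a T / b T ∈ ℚ`.
Snake lemma: `μ` is multiplicative on short exact sequences of `Λ`-modules that are finitely
generated over `ℤ`; `μ T = 1` for finite `T`.
-/
import Mathlib
import Fermat.Agent.S56.GW.EC.Mult.G.Exact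

set_option autoImplicit false
set_option linter.style.haveILetI false
set_option linter.unusedSectionVars false

namespace Fermat.Agent.S56

open MonoidAlgebra

section defs

variable (C : Type) [Group C] (p : ℕ)
variable (T : Type*) [AddCommGroup T] [Module (MonoidAlgebra ℤ C) T]

/-- multiplication by `p` as a `Λ`-linear map -/
noncomputable def s56emg_mulp : T →ₗ[MonoidAlgebra ℤ C] T where
  toFun t := p • t
  map_add' := smul_add p
  map_smul' r t := by
    simp only [RingHom.id_apply]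
    exact (smul_comm r p t).symm

@[simp] theorem s56emg_mulp_apply (t : T) : s56emg_mulp C p T t = p • t := rfl

/-- `T[p]` -/
noncomputable abbrev s56emg_K : Submodule (MonoidAlgebra ℤ C) T := LinearMap.ker (s56emg_mulp C p T)

/-- `T / p T` -/
abbrev s56emg_Q : Type _ := T ⧸ LinearMap.range (s56emg_mulp C p T)

theorem s56emg_K_killed (v : s56emg_K C p T) : p • v = 0 := by
  apply Subtype.ext
  have := v.2
  rw [LinearMap.mem_ker, s56emg_mulp_apply] at this
  simpa using this

theorem s56emg_Q_killed (v : s56emg_Q C p T) : p • v = 0 := by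
  obtain ⟨t, rfl⟩ := Submodule.Quotient.mk_surjective _ v
  rw [← Submodule.Quotient.mk_smul, Submodule.Quotient.mk_eq_zero]
  exact ⟨t, s56emg_mulp_apply C p T t⟩

theorem s56emg_K_finite [Module.Finite ℤ T] (hp : p ≠ 0) : Finite (s56emg_K C p T) := by
  haveI : IsNoetherian ℤ T := isNoetherian_of_isNoetherianRing_of_finite ℤ T
  haveI : Module.Finite ℤ ↥((s56emg_K C p T).restrictScalars ℤ) := Module.IsNoetherian.finite ℤ _
  have : Finite ↥((s56emg_K C p T).restrictScalars ℤ) := by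
    refine Module.finite_of_fg_torsion _ ?_
    intro x
    refine ⟨⟨(p : ℤ), mem_nonZeroDivisors_of_ne_zero (by exact_mod_cast hp)⟩, ?_⟩
    show (p : ℤ) • x = 0
    rw [Nat.cast_smul_eq_nsmul]
    exact s56emg_K_killed C p T x
  exact this

theorem s56emg_Q_finite [Module.Finite ℤ T] (hp : p ≠ 0) : Finite (s56emg_Q C p T) := by
  haveI : Module.Finite ℤ (s56emg_Q C p T) :=
    Module.Finite.of_surjective
      ((LinearMap.range (s56emg_mulp C p T)).mkQ.toAddMonoidHom.toIntLinearMap)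
      (Submodule.mkQ_surjective (LinearMap.range (s56emg_mulp C p T)))
  refine Module.finite_of_fg_torsion _ ?_
  intro x
  refine ⟨⟨(p : ℤ), mem_nonZeroDivisors_of_ne_zero (by exact_mod_cast hp)⟩, ?_⟩
  show (p : ℤ) • x = 0
  rw [Nat.cast_smul_eq_nsmul]
  exact s56emg_Q_killed C p T x

variable (X : Type*) [AddCommGroup X] [Module (MonoidAlgebra ℤ C) X]

/-- `#Hom_Λ(X, T / p)` -/
noncomputable def s56emg_a : ℕ := s56emg_h C X (s56emg_Q C p T)

/-- `#Hom_Λ(X, T[p])` -/
noncomputable def s56emg_b : ℕ := s56emg_h C X (s56emg_K C p T)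

/-- `μ_X(T) = #Hom_Λ(X, T / p) / #Hom_Λ(X, T[p])` -/
noncomputable def s56emg_mu : ℚ := (s56emg_a C p T X : ℚ) / (s56emg_b C p T X : ℚ)

end defs

section delta

variable {C : Type} [Group C] {p : ℕ}
variable {T₁ T₂ T₃ : Type*} [AddCommGroup T₁] [Module (MonoidAlgebra ℤ C) T₁]
  [AddCommGroup T₂] [Module (MonoidAlgebra ℤ C) T₂] [AddCommGroup T₃] [Module (MonoidAlgebra ℤ C) T₃]
variable (f₁ : T₁ →ₗ[MonoidAlgebra ℤ C] T₂) (f₂ : T₂ →ₗ[MonoidAlgebra ℤ C] T₃)

theorem s56emg_delta_exists (hex : Function.Exact f₁ f₂) (hf₂ : Function.Surjective f₂)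
    (z : s56emg_K C p T₃) : ∃ x : T₁, ∃ y : T₂, f₂ y = (z : T₃) ∧ f₁ x = p • y := by
  obtain ⟨y, hy⟩ := hf₂ (z : T₃)
  have hz : p • (z : T₃) = 0 := by
    have := z.2
    rw [LinearMap.mem_ker, s56emg_mulp_apply] at this
    exact this
  have h0 : f₂ (p • y) = 0 := by rw [map_nsmul, hy, hz]
  obtain ⟨x, hx⟩ := (hex _).mp h0
  exact ⟨x, y, hy, hx⟩

theorem s56emg_delta_unique (hf₁ : Function.Injective f₁) (hex : Function.Exact f₁ f₂)
    {x x' : T₁} {y y' : T₂} (h : f₂ y = f₂ y') (hx : f₁ x = p • y) (hx' : f₁ x' = p • y') :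
    (Submodule.Quotient.mk x : s56emg_Q C p T₁) = Submodule.Quotient.mk x' := by
  have h0 : f₂ (y - y') = 0 := by rw [map_sub, h, sub_self]
  obtain ⟨u, hu⟩ := (hex _).mp h0
  rw [Submodule.Quotient.eq]
  refine ⟨u, ?_⟩
  apply hf₁
  rw [s56emg_mulp_apply, map_nsmul, hu, map_sub, hx, hx', smul_sub]

/-- the connecting map `T₃[p] → T₁/p` -/
noncomputable def s56emg_delta (hf₁ : Function.Injective f₁) (hex : Function.Exact f₁ f₂)
    (hf₂ : Function.Surjective f₂) :
    s56emg_K C p T₃ →ₗ[MonoidAlgebra ℤ C] s56emg_Q C p T₁ where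
  toFun z := Submodule.Quotient.mk (Classical.choose (s56emg_delta_exists f₁ f₂ hex hf₂ z))
  map_add' z z' := by
    obtain ⟨y, hy, hx⟩ := Classical.choose_spec (s56emg_delta_exists f₁ f₂ hex hf₂ z)
    obtain ⟨y', hy', hx'⟩ := Classical.choose_spec (s56emg_delta_exists f₁ f₂ hex hf₂ z')
    obtain ⟨y'', hy'', hx''⟩ := Classical.choose_spec (s56emg_delta_exists f₁ f₂ hex hf₂ (z + z'))
    rw [← Submodule.Quotient.mk_add]
    refine s56emg_delta_unique f₁ f₂ hf₁ hex (y := y'') (y' := y + y') ?_ hx'' ?_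
    · rw [hy'', map_add, hy, hy']; rfl
    · rw [map_add, hx, hx', smul_add]
  map_smul' r z := by
    obtain ⟨y, hy, hx⟩ := Classical.choose_spec (s56emg_delta_exists f₁ f₂ hex hf₂ z)
    obtain ⟨y'', hy'', hx''⟩ := Classical.choose_spec (s56emg_delta_exists f₁ f₂ hex hf₂ (r • z))
    rw [RingHom.id_apply, ← Submodule.Quotient.mk_smul]
    refine s56emg_delta_unique f₁ f₂ hf₁ hex (y := y'') (y' := r • y) ?_ hx'' ?_
    · rw [hy'', map_smul, hy]; rfl
    · rw [map_smul, hx, smul_comm]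

theorem s56emg_delta_eq (hf₁ : Function.Injective f₁) (hex : Function.Exact f₁ f₂)
    (hf₂ : Function.Surjective f₂) (z : s56emg_K C p T₃) (x : T₁) (y : T₂)
    (hy : f₂ y = (z : T₃)) (hx : f₁ x = p • y) :
    s56emg_delta f₁ f₂ hf₁ hex hf₂ z = Submodule.Quotient.mk x := by
  obtain ⟨y', hy', hx'⟩ := Classical.choose_spec (s56emg_delta_exists f₁ f₂ hex hf₂ z)
  exact s56emg_delta_unique f₁ f₂ hf₁ hex (hy'.trans hy.symm) hx' hx

end delta

section snake

variable {C : Type} [Group C] [Fintype C] {p : ℕ} [Fact p.Prime]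
variable {T₁ T₂ T₃ : Type*} [AddCommGroup T₁] [Module (MonoidAlgebra ℤ C) T₁]
  [AddCommGroup T₂] [Module (MonoidAlgebra ℤ C) T₂] [AddCommGroup T₃] [Module (MonoidAlgebra ℤ C) T₃]
variable (X : Type*) [AddCommGroup X] [Module (MonoidAlgebra ℤ C) X]

/-- the snake lemma for multiplication by `p`, in counting form -/
theorem s56emg_ab_ses (hpC : ¬ p ∣ Fintype.card C)
    (f₁ : T₁ →ₗ[MonoidAlgebra ℤ C] T₂) (f₂ : T₂ →ₗ[MonoidAlgebra ℤ C] T₃)
    (hf₁ : Function.Injective f₁) (hex : Function.Exact f₁ f₂) (hf₂ : Function.Surjective f₂) :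
    s56emg_b C p T₁ X * s56emg_b C p T₃ X * s56emg_a C p T₂ X =
      s56emg_b C p T₂ X * s56emg_a C p T₁ X * s56emg_a C p T₃ X := by
  set i₁ := s56emg_mulp C p T₁ with hi₁
  set i₂ := s56emg_mulp C p T₂ with hi₂
  set i₃ := s56emg_mulp C p T₃ with hi₃
  have h₁ : f₁ ∘ₗ i₁ = i₂ ∘ₗ f₁ := by
    ext t; simp [hi₁, hi₂, map_nsmul]
  have h₂ : f₂ ∘ₗ i₂ = i₃ ∘ₗ f₂ := by
    ext t; simp [hi₂, hi₃, map_nsmul]
  -- the maps on kernels
  let F₁ : LinearMap.ker i₁ →ₗ[MonoidAlgebra ℤ C] LinearMap.ker i₂ :=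
    f₁.restrict (fun x hx => by
      rw [LinearMap.mem_ker] at hx ⊢
      have := LinearMap.congr_fun h₁ x
      simp only [LinearMap.comp_apply] at this
      rw [← this, hx, map_zero])
  let F₂ : LinearMap.ker i₂ →ₗ[MonoidAlgebra ℤ C] LinearMap.ker i₃ :=
    f₂.restrict (fun x hx => by
      rw [LinearMap.mem_ker] at hx ⊢
      have := LinearMap.congr_fun h₂ x
      simp only [LinearMap.comp_apply] at this
      rw [← this, hx, map_zero])
  -- the maps on cokernels
  let G₁ : (T₁ ⧸ LinearMap.range i₁) →ₗ[MonoidAlgebra ℤ C] (T₂ ⧸ LinearMap.range i₂) :=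
    Submodule.mapQ _ _ f₁ (by
      rintro _ ⟨t, rfl⟩
      exact ⟨f₁ t, (LinearMap.congr_fun h₁ t).symm⟩)
  let G₂ : (T₂ ⧸ LinearMap.range i₂) →ₗ[MonoidAlgebra ℤ C] (T₃ ⧸ LinearMap.range i₃) :=
    Submodule.mapQ _ _ f₂ (by
      rintro _ ⟨t, rfl⟩
      exact ⟨f₂ t, (LinearMap.congr_fun h₂ t).symm⟩)
  let δ : LinearMap.ker i₃ →ₗ[MonoidAlgebra ℤ C] (T₁ ⧸ LinearMap.range i₁) :=
    s56emg_delta f₁ f₂ hf₁ hex hf₂
  have e₁ : Function.Injective F₁ := by
    intro x y hxy
    apply Subtype.ext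
    apply hf₁
    exact congrArg Subtype.val hxy
  have e₂ : Function.Exact F₁ F₂ := by
    intro y
    constructor
    · intro hy
      have hy' : f₂ (y : T₂) = 0 := congrArg Subtype.val hy
      obtain ⟨x, hx⟩ := (hex (y : T₂)).mp hy'
      have hxk : x ∈ LinearMap.ker i₁ := by
        rw [LinearMap.mem_ker]
        apply hf₁
        have := LinearMap.congr_fun h₁ x
        simp only [LinearMap.comp_apply] at this
        rw [this, hx, map_zero]
        exact y.2
      exact ⟨⟨x, hxk⟩, Subtype.ext hx⟩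
    · rintro ⟨x, rfl⟩
      apply Subtype.ext
      exact hex.apply_apply_eq_zero _
  have e₃ : Function.Exact F₂ δ := by
    intro z
    constructor
    · intro hz
      obtain ⟨x, y, hy, hx⟩ := s56emg_delta_exists f₁ f₂ hex hf₂ z
      have hd : δ z = Submodule.Quotient.mk x := s56emg_delta_eq f₁ f₂ hf₁ hex hf₂ z x y hy hx
      rw [hz] at hd
      have hx0 := hd.symm
      rw [Submodule.Quotient.mk_eq_zero] at hx0
      obtain ⟨u, hu⟩ := hx0
      have hu' : p • u = x := by rw [← hu]; rfl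
      have hk : y - f₁ u ∈ LinearMap.ker i₂ := by
        rw [LinearMap.mem_ker]
        show p • (y - f₁ u) = 0
        rw [smul_sub, ← map_nsmul, hu', hx, sub_self]
      refine ⟨⟨y - f₁ u, hk⟩, ?_⟩
      apply Subtype.ext
      show f₂ (y - f₁ u) = (z : T₃)
      rw [map_sub, hex.apply_apply_eq_zero, sub_zero, hy]
    · rintro ⟨w, rfl⟩
      have hw : p • (w : T₂) = 0 := by
        have := w.2
        rw [LinearMap.mem_ker] at this
        exact this
      have hd : δ (F₂ w) = Submodule.Quotient.mk 0 :=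
        s56emg_delta_eq f₁ f₂ hf₁ hex hf₂ (F₂ w) 0 (w : T₂) rfl (by rw [map_zero, hw])
      rw [hd, Submodule.Quotient.mk_zero]
  have e₄ : Function.Exact δ G₁ := by
    intro q
    obtain ⟨x, rfl⟩ := Submodule.Quotient.mk_surjective _ q
    constructor
    · intro hq
      have hq' : Submodule.Quotient.mk (f₁ x) = (0 : T₂ ⧸ LinearMap.range i₂) := hq
      rw [Submodule.Quotient.mk_eq_zero] at hq'
      obtain ⟨y, hy⟩ := hq'
      have hy' : p • y = f₁ x := hy
      have hk : f₂ y ∈ LinearMap.ker i₃ := by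
        rw [LinearMap.mem_ker]
        show p • f₂ y = 0
        rw [← map_nsmul, hy', hex.apply_apply_eq_zero]
      exact ⟨⟨f₂ y, hk⟩, s56emg_delta_eq f₁ f₂ hf₁ hex hf₂ ⟨f₂ y, hk⟩ x y rfl hy'.symm⟩
    · rintro ⟨z, hz⟩
      obtain ⟨x', y, hy, hx'⟩ := s56emg_delta_exists f₁ f₂ hex hf₂ z
      have hd : δ z = Submodule.Quotient.mk x' := s56emg_delta_eq f₁ f₂ hf₁ hex hf₂ z x' y hy hx'
      have hxx : (Submodule.Quotient.mk x' : T₁ ⧸ LinearMap.range i₁) = Submodule.Quotient.mk x :=
        hd.symm.trans hz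
      show G₁ (Submodule.Quotient.mk x) = 0
      rw [← hxx]
      show Submodule.Quotient.mk (f₁ x') = (0 : T₂ ⧸ LinearMap.range i₂)
      rw [Submodule.Quotient.mk_eq_zero]
      exact ⟨y, hx'.symm⟩
  have e₅ : Function.Exact G₁ G₂ := by
    intro y
    obtain ⟨t, rfl⟩ := Submodule.Quotient.mk_surjective _ y
    constructor
    · intro hy
      have hy' : Submodule.Quotient.mk (f₂ t) = (0 : T₃ ⧸ LinearMap.range i₃) := hy
      rw [Submodule.Quotient.mk_eq_zero] at hy'
      obtain ⟨z, hz⟩ := hy'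
      obtain ⟨w, rfl⟩ := hf₂ z
      have h3 : f₂ (t - i₂ w) = 0 := by
        rw [map_sub]
        have := LinearMap.congr_fun h₂ w
        simp only [LinearMap.comp_apply] at this
        rw [this, hz, sub_self]
      obtain ⟨u, hu⟩ := (hex _).mp h3
      refine ⟨Submodule.Quotient.mk u, ?_⟩
      show Submodule.Quotient.mk (f₁ u) = Submodule.Quotient.mk t
      rw [hu, Submodule.Quotient.mk_sub, sub_eq_self, Submodule.Quotient.mk_eq_zero]
      exact ⟨w, rfl⟩
    · rintro ⟨x, hx⟩
      obtain ⟨u, rfl⟩ := Submodule.Quotient.mk_surjective _ x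
      have hx' : Submodule.Quotient.mk (f₁ u) = (Submodule.Quotient.mk t :
          T₂ ⧸ LinearMap.range i₂) := hx
      show G₂ (Submodule.Quotient.mk t) = 0
      rw [← hx']
      show Submodule.Quotient.mk (f₂ (f₁ u)) = (0 : T₃ ⧸ LinearMap.range i₃)
      rw [hex.apply_apply_eq_zero, Submodule.Quotient.mk_zero]
  have e₆ : Function.Surjective G₂ := by
    intro y
    obtain ⟨t, rfl⟩ := Submodule.Quotient.mk_surjective _ y
    obtain ⟨w, rfl⟩ := hf₂ t
    exact ⟨Submodule.Quotient.mk w, rfl⟩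
  have := s56emg_h_six X hpC (s56emg_K_killed C p T₁) (s56emg_K_killed C p T₂)
    (s56emg_K_killed C p T₃) (s56emg_Q_killed C p T₁) (s56emg_Q_killed C p T₂)
    F₁ F₂ δ G₁ G₂ e₁ e₂ e₃ e₄ e₅ e₆
  unfold s56emg_a s56emg_b
  exact this

end snake

section mu

variable {C : Type} [Group C] [Fintype C] {p : ℕ} [Fact p.Prime]
variable (X : Type*) [AddCommGroup X] [Module (MonoidAlgebra ℤ C) X]

theorem s56emg_a_of_subsingleton (T : Type*) [AddCommGroup T] [Module (MonoidAlgebra ℤ C) T]
    [Subsingleton T] : s56emg_a C p T X = 1 := by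
  unfold s56emg_a
  exact s56emg_h_of_subsingleton X

theorem s56emg_b_of_subsingleton (T : Type*) [AddCommGroup T] [Module (MonoidAlgebra ℤ C) T]
    [Subsingleton T] : s56emg_b C p T X = 1 := by
  unfold s56emg_b
  exact s56emg_h_of_subsingleton X

theorem s56emg_a_pos [Finite X] (T : Type*) [AddCommGroup T] [Module (MonoidAlgebra ℤ C) T]
    [Module.Finite ℤ T] : 0 < s56emg_a C p T X := by
  haveI := s56emg_Q_finite C p T (Fact.out : p.Prime).ne_zero
  exact s56emg_h_pos X

theorem s56emg_b_pos [Finite X] (T : Type*) [AddCommGroup T] [Module (MonoidAlgebra ℤ C) T]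
    [Module.Finite ℤ T] : 0 < s56emg_b C p T X := by
  haveI := s56emg_K_finite C p T (Fact.out : p.Prime).ne_zero
  exact s56emg_h_pos X

theorem s56emg_mu_pos [Finite X] (T : Type*) [AddCommGroup T] [Module (MonoidAlgebra ℤ C) T]
    [Module.Finite ℤ T] : 0 < s56emg_mu C p T X := by
  unfold s56emg_mu
  have h1 := s56emg_a_pos (C := C) (p := p) X T
  have h2 := s56emg_b_pos (C := C) (p := p) X T
  positivity

/-- `μ` is multiplicative on short exact sequences -/
theorem s56emg_mu_ses [Finite X] (hpC : ¬ p ∣ Fintype.card C)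
    {T₁ T₂ T₃ : Type*} [AddCommGroup T₁] [Module (MonoidAlgebra ℤ C) T₁]
    [AddCommGroup T₂] [Module (MonoidAlgebra ℤ C) T₂] [AddCommGroup T₃]
    [Module (MonoidAlgebra ℤ C) T₃] [Module.Finite ℤ T₁] [Module.Finite ℤ T₂] [Module.Finite ℤ T₃]
    (f₁ : T₁ →ₗ[MonoidAlgebra ℤ C] T₂) (f₂ : T₂ →ₗ[MonoidAlgebra ℤ C] T₃)
    (hf₁ : Function.Injective f₁) (hex : Function.Exact f₁ f₂) (hf₂ : Function.Surjective f₂) :
    s56emg_mu C p T₂ X = s56emg_mu C p T₁ X * s56emg_mu C p T₃ X := by
  have h := s56emg_ab_ses X hpC f₁ f₂ hf₁ hex hf₂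
  have b1 := s56emg_b_pos (C := C) (p := p) X T₁
  have b2 := s56emg_b_pos (C := C) (p := p) X T₂
  have b3 := s56emg_b_pos (C := C) (p := p) X T₃
  unfold s56emg_mu
  have hq : (s56emg_b C p T₁ X : ℚ) * s56emg_b C p T₃ X * s56emg_a C p T₂ X =
      s56emg_b C p T₂ X * s56emg_a C p T₁ X * s56emg_a C p T₃ X := by exact_mod_cast h
  have c1 : (s56emg_b C p T₁ X : ℚ) ≠ 0 := by positivity
  have c2 : (s56emg_b C p T₂ X : ℚ) ≠ 0 := by positivity
  have c3 : (s56emg_b C p T₃ X : ℚ) ≠ 0 := by positivity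
  field_simp
  linear_combination hq

/-- `μ` is invariant under isomorphisms -/
theorem s56emg_mu_congr [Finite X] (hpC : ¬ p ∣ Fintype.card C)
    {T T' : Type*} [AddCommGroup T] [Module (MonoidAlgebra ℤ C) T]
    [AddCommGroup T'] [Module (MonoidAlgebra ℤ C) T'] [Module.Finite ℤ T] [Module.Finite ℤ T']
    (e : T ≃ₗ[MonoidAlgebra ℤ C] T') : s56emg_mu C p T X = s56emg_mu C p T' X := by
  have h := s56emg_mu_ses (p := p) X hpC (T₃ := PUnit.{1}) e.toLinearMap
    (0 : T' →ₗ[MonoidAlgebra ℤ C] PUnit.{1}) e.injective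
    (fun y => ⟨fun _ => e.surjective y, fun _ => rfl⟩) (fun _ => ⟨0, Subsingleton.elim _ _⟩)
  rw [h]
  have : s56emg_mu C p PUnit.{1} X = 1 := by
    unfold s56emg_mu
    rw [s56emg_a_of_subsingleton, s56emg_b_of_subsingleton]
    simp
  rw [this, mul_one]

/-- `μ V = 1` for a finite module killed by `p` -/
theorem s56emg_mu_of_killed [Finite X] (V : Type*) [AddCommGroup V] [Module (MonoidAlgebra ℤ C) V]
    [Finite V] (hV : ∀ v : V, p • v = 0) : s56emg_mu C p V X = 1 := by
  have hK : s56emg_K C p V = ⊤ := by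
    rw [eq_top_iff]
    intro v _
    rw [LinearMap.mem_ker, s56emg_mulp_apply]
    exact hV v
  have hR : LinearMap.range (s56emg_mulp C p V) = ⊥ := by
    rw [eq_bot_iff]
    rintro _ ⟨v, rfl⟩
    rw [s56emg_mulp_apply, hV]
    exact Submodule.zero_mem _
  have ha : s56emg_a C p V X = s56emg_h C X V :=
    s56emg_h_congr X (Submodule.quotEquivOfEqBot _ hR)
  have hb : s56emg_b C p V X = s56emg_h C X V :=
    s56emg_h_congr X ((LinearEquiv.ofEq _ _ hK).trans Submodule.topEquiv)
  unfold s56emg_mu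
  rw [ha, hb]
  have := s56emg_h_pos (C := C) X (V := V)
  have h0 : (s56emg_h C X V : ℚ) ≠ 0 := by positivity
  exact div_self h0

/-- `μ T = 1` for a finite module -/
theorem s56emg_mu_of_finite [Finite X] (hpC : ¬ p ∣ Fintype.card C) :
    ∀ (n : ℕ) (T : Type) [AddCommGroup T] [Module (MonoidAlgebra ℤ C) T] [Finite T],
      Nat.card T = n → s56emg_mu C p T X = 1 := by
  intro n
  induction n using Nat.strong_induction_on with
  | _ n ih =>
    intro T _ _ _ hn
    haveI : Module.Finite ℤ T := Module.Finite.of_finite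
    set N : Submodule (MonoidAlgebra ℤ C) T := LinearMap.range (s56emg_mulp C p T) with hN
    by_cases htop : N = ⊤
    · -- multiplication by `p` is bijective
      have hsurj : Function.Surjective (s56emg_mulp C p T) := LinearMap.range_eq_top.mp htop
      have hinj : Function.Injective (s56emg_mulp C p T) :=
        Finite.injective_iff_surjective.mpr hsurj
      haveI : Subsingleton (s56emg_K C p T) := by
        show Subsingleton ↥(LinearMap.ker (s56emg_mulp C p T))
        rw [LinearMap.ker_eq_bot.mpr hinj]; infer_instance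
      haveI : Subsingleton (s56emg_Q C p T) := by
        show Subsingleton (T ⧸ N)
        rw [htop]; infer_instance
      unfold s56emg_mu s56emg_a s56emg_b
      rw [s56emg_h_of_subsingleton, s56emg_h_of_subsingleton]
      simp
    · -- `0 → pT → T → T/pT → 0`
      have hlt : Nat.card N < n := by
        rw [← hn]
        have hne : ∃ t : T, t ∉ N := by
          by_contra hcon
          push Not at hcon
          exact htop (eq_top_iff.mpr fun t _ => hcon t)
        obtain ⟨t, ht⟩ := hne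
        have : Nat.card N < Nat.card T := by
          haveI := Fintype.ofFinite T
          haveI := Fintype.ofFinite N
          rw [Nat.card_eq_fintype_card (α := N), Nat.card_eq_fintype_card (α := T)]
          exact Fintype.card_lt_of_injective_of_notMem (Subtype.val) Subtype.val_injective
            (b := t) (by rintro ⟨x, rfl⟩; exact ht x.2)
        exact this
      have h1 := ih _ hlt N rfl
      have h2 := s56emg_mu_ses (p := p) X hpC N.subtype N.mkQ (Submodule.subtype_injective _)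
        (LinearMap.exact_subtype_mkQ N) (Submodule.mkQ_surjective N)
      haveI : Finite (T ⧸ N) := Finite.of_surjective N.mkQ (Submodule.mkQ_surjective N)
      have h3 : s56emg_mu C p (T ⧸ N) X = 1 :=
        s56emg_mu_of_killed X (T ⧸ N) (s56emg_Q_killed C p T)
      rw [h2, h1, h3, mul_one]

end mu

end Fermat.Agent.S56
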