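/-
S56, node [GW-EC], cell [EC-MULT] (prefix `s56emg_`, Mathlib only), part III.

Bridge between abelian groups with a `B`-action (`DistribMulAction B M`) and `Λ = ℤ[B]`-modules:
the module structure `s56emg_mod`, the bijection `(X →+[B] V) ≃ (X →ₗ[Λ] V)`, and the evaluation of
`a M = #Hom_Λ(X, M/p)`, `b M = #Hom_Λ(X, M[p])` through ARBITRARY models of `M/p` and `M[p]`.
-/
import Mathlib
import Fermat.Agent.S56.GW.EC.Mult.G.Mu

set_option autoImplicit false
set_option linter.style.haveILetI false
set_option linter.unusedSectionVars false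

namespace Fermat.Agent.S56

open MonoidAlgebra

section modstr

variable (B : Type) [Group B] (M : Type*) [AddCommGroup M] [DistribMulAction B M]

/-- The `ℤ[B]`-module structure of an abelian group with a `B`-action. -/
@[reducible] noncomputable def s56emg_mod : Module (MonoidAlgebra ℤ B) M :=
  Module.compHom M
    ((MonoidAlgebra.lift ℤ (Module.End ℤ M) B) (DistribMulAction.toModuleEnd ℤ M)).toRingHom

theorem s56emg_mod_of_smul (b : B) (m : M) :
    letI := s56emg_mod B M
    (of ℤ B b : MonoidAlgebra ℤ B) • m = b • m := by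
  letI := s56emg_mod B M
  show ((MonoidAlgebra.lift ℤ (Module.End ℤ M) B) (DistribMulAction.toModuleEnd ℤ M))
    (of ℤ B b) m = b • m
  rw [MonoidAlgebra.lift_of]
  rfl

end modstr

/-- compatibility of a `ℤ[B]`-module structure with a `B`-action -/
def s56emg_Compat (B : Type) [Group B] (M : Type*) [AddCommGroup M]
    [Module (MonoidAlgebra ℤ B) M] [DistribMulAction B M] : Prop :=
  ∀ (b : B) (m : M), (of ℤ B b : MonoidAlgebra ℤ B) • m = b • m

theorem s56emg_mod_compat (B : Type) [Group B] (M : Type*) [AddCommGroup M]
    [DistribMulAction B M] : @s56emg_Compat B _ M _ (s56emg_mod B M) _ :=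
  fun b m => s56emg_mod_of_smul B M b m

section hom

variable {B : Type} [Group B]
variable {X V : Type*} [AddCommGroup X] [Module (MonoidAlgebra ℤ B) X] [DistribMulAction B X]
  [AddCommGroup V] [Module (MonoidAlgebra ℤ B) V] [DistribMulAction B V]

/-- equivariant additive maps are the same as `ℤ[B]`-linear maps -/
noncomputable def s56emg_homEquiv (hX : s56emg_Compat B X) (hV : s56emg_Compat B V) :
    (X →+[B] V) ≃ (X →ₗ[MonoidAlgebra ℤ B] V) where
  toFun φ := s56emg_mkLin (φ : X →+ V) (fun b x => by
    rw [hX, hV]
    exact map_smul φ b x)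
  invFun f :=
    { toFun := f
      map_smul' := fun b x => by
        show f (b • x) = b • f x
        rw [← hX, map_smul, hV]
      map_zero' := map_zero f
      map_add' := map_add f }
  left_inv φ := by ext x; rfl
  right_inv f := by ext x; rfl

theorem s56emg_card_hom (hX : s56emg_Compat B X) (hV : s56emg_Compat B V) :
    Nat.card (X →+[B] V) = s56emg_h B X V :=
  Nat.card_congr (s56emg_homEquiv hX hV)

end hom

section eval

variable {B : Type} [Group B] {p : ℕ}
variable {M : Type*} [AddCommGroup M] [Module (MonoidAlgebra ℤ B) M] [DistribMulAction B M]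
variable (X : Type*) [AddCommGroup X] [Module (MonoidAlgebra ℤ B) X] [DistribMulAction B X]

/-- evaluation of `a M = #Hom_Λ(X, M/p)` through an arbitrary model `Q` of `M/p` -/
theorem s56emg_a_eval (hM : s56emg_Compat B M) (hX : s56emg_Compat B X)
    {Q : Type*} [AddCommGroup Q] [DistribMulAction B Q]
    (π : M →+[B] Q) (hπ : Function.Surjective π) (hker : ∀ t, π t = 0 ↔ ∃ s, t = p • s) :
    s56emg_a B p M X = Nat.card (X →+[B] Q) := by
  letI := s56emg_mod B Q
  have hQ : s56emg_Compat B Q := s56emg_mod_compat B Q
  let π' : M →ₗ[MonoidAlgebra ℤ B] Q := s56emg_homEquiv hM hQ π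
  have hπ' : Function.Surjective π' := hπ
  have hk : LinearMap.ker π' = LinearMap.range (s56emg_mulp B p M) := by
    ext t
    rw [LinearMap.mem_ker, LinearMap.mem_range]
    show π t = 0 ↔ _
    rw [hker]
    constructor
    · rintro ⟨s, rfl⟩; exact ⟨s, rfl⟩
    · rintro ⟨s, rfl⟩; exact ⟨s, rfl⟩
  let e : s56emg_Q B p M ≃ₗ[MonoidAlgebra ℤ B] Q :=
    (Submodule.quotEquivOfEq _ _ hk.symm).trans (π'.quotKerEquivOfSurjective hπ')
  rw [s56emg_card_hom hX hQ]
  exact s56emg_h_congr X e

/-- evaluation of `b M = #Hom_Λ(X, M[p])` through an arbitrary model `K` of `M[p]` -/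
theorem s56emg_b_eval (hM : s56emg_Compat B M) (hX : s56emg_Compat B X)
    {K : Type*} [AddCommGroup K] [DistribMulAction B K]
    (ι : K →+[B] M) (hι : Function.Injective ι) (hr : ∀ t, p • t = 0 ↔ ∃ k, ι k = t) :
    s56emg_b B p M X = Nat.card (X →+[B] K) := by
  letI := s56emg_mod B K
  have hK : s56emg_Compat B K := s56emg_mod_compat B K
  let ι' : K →ₗ[MonoidAlgebra ℤ B] M := s56emg_homEquiv hK hM ι
  have hι' : Function.Injective ι' := hι
  have hk : LinearMap.range ι' = s56emg_K B p M := by
    ext t
    rw [LinearMap.mem_range, LinearMap.mem_ker, s56emg_mulp_apply, hr]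
    rfl
  let e : K ≃ₗ[MonoidAlgebra ℤ B] s56emg_K B p M :=
    (LinearEquiv.ofInjective ι' hι').trans (LinearEquiv.ofEq _ _ hk)
  rw [s56emg_card_hom hX hK]
  exact (s56emg_h_congr X e).symm

/-- `b M = 1` when `M` has no `p`-torsion -/
theorem s56emg_b_of_torsionFree (hM : ∀ t : M, p • t = 0 → t = 0) : s56emg_b B p M X = 1 := by
  haveI : Subsingleton (s56emg_K B p M) := by
    refine ⟨fun x y => Subtype.ext ?_⟩
    have hx := x.2
    have hy := y.2
    rw [LinearMap.mem_ker, s56emg_mulp_apply] at hx hy
    rw [hM _ hx, hM _ hy]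
  unfold s56emg_b
  exact s56emg_h_of_subsingleton X

end eval

section perm

variable {B : Type} [Group B] {p : ℕ} [Fact p.Prime]
variable {M : Type*} [AddCommGroup M] [Module (MonoidAlgebra ℤ B) M] [DistribMulAction B M]
variable (X : Type*) [AddCommGroup X] [Module (MonoidAlgebra ℤ B) X] [DistribMulAction B X]

/-- permutation lattices: if `M ≅ ℤ^Y` with `B` permuting `Y`, then `M[p] = 0` and `M/p` is modelled
by any `P ≅ (ℤ/p)^Y` with the same permutation action. -/
theorem s56emg_perm_eval (hM : s56emg_Compat B M) (hX : s56emg_Compat B X)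
    {Y : Type*} [MulAction B Y] (e : M ≃+ (Y → ℤ))
    (he : ∀ (b : B) (m : M) (y : Y), e (b • m) y = e m (b⁻¹ • y))
    {P : Type*} [AddCommGroup P] [DistribMulAction B P] (eP : P ≃+ (Y → ZMod p))
    (heP : ∀ (b : B) (a : P) (y : Y), eP (b • a) y = eP a (b⁻¹ • y)) :
    s56emg_a B p M X = Nat.card (X →+[B] P) ∧ s56emg_b B p M X = 1 := by
  have hp : p ≠ 0 := (Fact.out : p.Prime).ne_zero
  constructor
  · -- the reduction map
    let π : M →+[B] P :=
      { toFun := fun m => eP.symm (fun y => ((e m y : ℤ) : ZMod p))
        map_smul' := fun b m => by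
          apply eP.injective
          funext y
          rw [heP]
          simp only [MonoidHom.id_apply, AddEquiv.apply_symm_apply]
          rw [he]
        map_zero' := by
          apply eP.injective
          funext y
          simp
        map_add' := fun m m' => by
          apply eP.injective
          funext y
          simp }
    have hπ_apply : ∀ m y, eP (π m) y = ((e m y : ℤ) : ZMod p) := by
      intro m y
      show eP (eP.symm _) y = _
      rw [AddEquiv.apply_symm_apply]
    refine s56emg_a_eval X hM hX π ?_ ?_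
    · intro a
      have : ∀ y, ∃ n : ℤ, (n : ZMod p) = eP a y := fun y => ZMod.intCast_surjective _
      choose f hf using this
      refine ⟨e.symm f, ?_⟩
      apply eP.injective
      funext y
      rw [hπ_apply, AddEquiv.apply_symm_apply, hf]
    · intro t
      constructor
      · intro ht
        have h1 : ∀ y, (p : ℤ) ∣ e t y := by
          intro y
          have := congrFun (congrArg eP ht) y
          rw [hπ_apply, map_zero, Pi.zero_apply] at this
          exact (ZMod.intCast_zmod_eq_zero_iff_dvd _ _).mp this
        choose g hg using h1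
        refine ⟨e.symm g, ?_⟩
        apply e.injective
        funext y
        rw [map_nsmul, AddEquiv.apply_symm_apply, Pi.smul_apply, hg y, nsmul_eq_mul]
      · rintro ⟨s, rfl⟩
        apply eP.injective
        funext y
        rw [hπ_apply, map_zero, Pi.zero_apply, map_nsmul, Pi.smul_apply, nsmul_eq_mul]
        push_cast
        rw [ZMod.natCast_self, zero_mul]
  · refine s56emg_b_of_torsionFree X ?_
    intro t ht
    apply e.injective
    funext y
    have := congrFun (congrArg e ht) y
    rw [map_nsmul, map_zero, Pi.smul_apply, Pi.zero_apply, nsmul_eq_mul] at this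
    rw [map_zero, Pi.zero_apply]
    rcases mul_eq_zero.mp this with h | h
    · exact absurd (by exact_mod_cast h) hp
    · exact h

end perm

end Fermat.Agent.S56
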