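/-
S56, node [GW-EC], cell [EC-MULT] (prefix `s56emg_`, Mathlib only), part I.

`Λ := ℤ[C]` for a finite group `C` (not necessarily commutative; general-group copy of `Mult/Exact.lean`), `p` a prime not dividing `#C`, `X` a `Λ`-module
killed by `p`.  On `Λ`-modules killed by `p` the functor `Hom_Λ(X, -)` is exact (averaging), hence
`V ↦ #Hom_Λ(X, V)` is multiplicative on exact sequences of finite `Λ`-modules killed by `p`.
-/
import Mathlib

set_option autoImplicit false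
set_option linter.style.haveILetI false

namespace Fermat.Agent.S56

open MonoidAlgebra

section mk

variable {C : Type} [Group C]
variable {X V : Type*} [AddCommGroup X] [Module (MonoidAlgebra ℤ C) X]
  [AddCommGroup V] [Module (MonoidAlgebra ℤ C) V]

/-- an additive map commuting with the elements of `C` is `ℤ[C]`-linear -/
def s56emg_mkLin (f : X →+ V)
    (h : ∀ (c : C) (x : X), f ((of ℤ C c : MonoidAlgebra ℤ C) • x) =
      (of ℤ C c : MonoidAlgebra ℤ C) • f x) : X →ₗ[MonoidAlgebra ℤ C] V where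
  toFun := f
  map_add' := f.map_add
  map_smul' := by
    intro r x
    simp only [RingHom.id_apply]
    refine MonoidAlgebra.induction_on (motive := fun r => f (r • x) = r • f x) r (fun c => h c x) ?_ ?_
    · intro a b ha hb
      rw [add_smul, add_smul, map_add, ha, hb]
    · intro z a ha
      rw [smul_assoc, map_zsmul, ha, smul_assoc]

@[simp] theorem s56emg_mkLin_apply (f : X →+ V)
    (h : ∀ (c : C) (x : X), f ((of ℤ C c : MonoidAlgebra ℤ C) • x) =
      (of ℤ C c : MonoidAlgebra ℤ C) • f x) (x : X) : s56emg_mkLin f h x = f x := rfl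

end mk

section lift

variable {C : Type} [Group C] [Fintype C]
variable {X V W : Type*} [AddCommGroup X] [Module (MonoidAlgebra ℤ C) X]
  [AddCommGroup V] [Module (MonoidAlgebra ℤ C) V] [AddCommGroup W] [Module (MonoidAlgebra ℤ C) W]

/-- `n • v` only depends on `n` mod `p` when `p • v = 0` -/
theorem s56emg_nsmul_of_modEq {p : ℕ} {A : Type*} [AddCommGroup A] (hA : ∀ a : A, p • a = 0)
    {m n : ℕ} (h : m ≡ n [MOD p]) (a : A) : m • a = n • a := by
  letI := AddCommGroup.zmodModule hA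
  rw [← Nat.cast_smul_eq_nsmul (ZMod p) m a, ← Nat.cast_smul_eq_nsmul (ZMod p) n a,
    (ZMod.natCast_eq_natCast_iff m n p).mpr h]

theorem s56emg_section_aux {p : ℕ} [Fact p.Prime] {A B : Type*} [AddCommGroup A] [AddCommGroup B]
    [Module (ZMod p) A] [Module (ZMod p) B] (π : A →+ B) (hπ : Function.Surjective π) :
    ∃ s : B →+ A, ∀ b, π (s b) = b := by
  obtain ⟨s, hs⟩ := LinearMap.exists_rightInverse_of_surjective
    (AddMonoidHom.toZModLinearMap p π) (LinearMap.range_eq_top.mpr hπ)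
  exact ⟨s.toAddMonoidHom, fun w => LinearMap.congr_fun hs w⟩

/-- a surjection of abelian groups killed by `p` has an additive section -/
theorem s56emg_section {p : ℕ} [Fact p.Prime] {A B : Type*} [AddCommGroup A] [AddCommGroup B]
    (hA : ∀ a : A, p • a = 0) (hB : ∀ b : B, p • b = 0) (π : A →+ B)
    (hπ : Function.Surjective π) : ∃ s : B →+ A, ∀ b, π (s b) = b :=
  @s56emg_section_aux p _ A B _ _ (AddCommGroup.zmodModule hA) (AddCommGroup.zmodModule hB) π hπ

/-- **averaging**: `Hom_Λ(X, -)` is right exact on modules killed by `p` -/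
theorem s56emg_lift {p : ℕ} [Fact p.Prime] (hpC : ¬ p ∣ Fintype.card C)
    (hV : ∀ v : V, p • v = 0) (hW : ∀ w : W, p • w = 0)
    (π : V →ₗ[MonoidAlgebra ℤ C] W) (hπ : Function.Surjective π)
    (f'' : X →ₗ[MonoidAlgebra ℤ C] W) :
    ∃ f : X →ₗ[MonoidAlgebra ℤ C] V, π ∘ₗ f = f'' := by
  classical
  -- an additive section
  obtain ⟨s, hs'⟩ := s56emg_section hV hW π.toAddMonoidHom hπ
  replace hs' : ∀ w : W, π (s w) = w := hs'
  -- the inverse of `#C` mod `p`
  obtain ⟨u, hu⟩ : ∃ u : ℕ, u * Fintype.card C ≡ 1 [MOD p] := by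
    have hne : ((Fintype.card C : ℕ) : ZMod p) ≠ 0 := by
      rwa [Ne, ZMod.natCast_eq_zero_iff]
    refine ⟨(((Fintype.card C : ℕ) : ZMod p)⁻¹).val, ?_⟩
    rw [← ZMod.natCast_eq_natCast_iff, Nat.cast_mul, ZMod.natCast_zmod_val, Nat.cast_one,
      inv_mul_cancel₀ hne]
  let f₀ : X → V := fun x => s (f'' x)
  have hf₀ : ∀ x y, f₀ (x + y) = f₀ x + f₀ y := fun x y => by simp [f₀, map_add]
  let F : X →+ V := AddMonoidHom.mk'
    (fun x => u • ∑ c : C, (of ℤ C c⁻¹ : MonoidAlgebra ℤ C) • f₀ ((of ℤ C c : MonoidAlgebra ℤ C) • x))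
    (by
      intro x y
      simp only [smul_add, hf₀, Finset.sum_add_distrib])
  have hF : ∀ (c' : C) (x : X), F ((of ℤ C c' : MonoidAlgebra ℤ C) • x) =
      (of ℤ C c' : MonoidAlgebra ℤ C) • F x := by
    intro c' x
    show u • ∑ c : C, (of ℤ C c⁻¹ : MonoidAlgebra ℤ C) •
        f₀ ((of ℤ C c : MonoidAlgebra ℤ C) • (of ℤ C c' : MonoidAlgebra ℤ C) • x) =
      (of ℤ C c' : MonoidAlgebra ℤ C) • (u • ∑ c : C, (of ℤ C c⁻¹ : MonoidAlgebra ℤ C) •
        f₀ ((of ℤ C c : MonoidAlgebra ℤ C) • x))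
    have key : ∑ c : C, (of ℤ C c⁻¹ : MonoidAlgebra ℤ C) •
        f₀ ((of ℤ C c : MonoidAlgebra ℤ C) • (of ℤ C c' : MonoidAlgebra ℤ C) • x) =
        (of ℤ C c' : MonoidAlgebra ℤ C) • ∑ c : C, (of ℤ C c⁻¹ : MonoidAlgebra ℤ C) •
          f₀ ((of ℤ C c : MonoidAlgebra ℤ C) • x) := by
      rw [Finset.smul_sum]
      rw [← Equiv.sum_comp (Equiv.mulRight c')
        (fun d => (of ℤ C c' : MonoidAlgebra ℤ C) • (of ℤ C d⁻¹ : MonoidAlgebra ℤ C) •
          f₀ ((of ℤ C d : MonoidAlgebra ℤ C) • x))]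
      refine Finset.sum_congr rfl fun c _ => ?_
      simp only [Equiv.coe_mulRight]
      rw [← mul_smul, ← mul_smul, ← map_mul, ← map_mul]
      congr 2
      group
    rw [key, smul_comm]
  refine ⟨s56emg_mkLin F hF, ?_⟩
  ext x
  show π (u • ∑ c : C, (of ℤ C c⁻¹ : MonoidAlgebra ℤ C) •
    f₀ ((of ℤ C c : MonoidAlgebra ℤ C) • x)) = f'' x
  rw [map_nsmul, map_sum]
  have : ∀ c : C, π ((of ℤ C c⁻¹ : MonoidAlgebra ℤ C) •
      f₀ ((of ℤ C c : MonoidAlgebra ℤ C) • x)) = f'' x := by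
    intro c
    rw [map_smul, hs', map_smul, ← mul_smul, ← map_mul, inv_mul_cancel, map_one, one_smul]
  rw [Finset.sum_congr rfl fun c _ => this c, Finset.sum_const, Finset.card_univ, ← mul_smul,
    s56emg_nsmul_of_modEq hW hu, one_smul]

end lift

section count

variable (C : Type) [Group C]
variable (X : Type*) [AddCommGroup X] [Module (MonoidAlgebra ℤ C) X]

/-- `#Hom_Λ(X, V)` -/
noncomputable def s56emg_h (V : Type*) [AddCommGroup V] [Module (MonoidAlgebra ℤ C) V] : ℕ :=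
  Nat.card (X →ₗ[MonoidAlgebra ℤ C] V)

variable {C}
variable {V V' V'' : Type*} [AddCommGroup V] [Module (MonoidAlgebra ℤ C) V]
  [AddCommGroup V'] [Module (MonoidAlgebra ℤ C) V'] [AddCommGroup V''] [Module (MonoidAlgebra ℤ C) V'']

theorem s56emg_h_congr (e : V ≃ₗ[MonoidAlgebra ℤ C] V') : s56emg_h C X V = s56emg_h C X V' :=
  Nat.card_congr
    { toFun := fun f => e.toLinearMap.comp f
      invFun := fun f => e.symm.toLinearMap.comp f
      left_inv := fun f => LinearMap.ext fun x => by simp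
      right_inv := fun f => LinearMap.ext fun x => by simp }

theorem s56emg_h_pos [Finite X] [Finite V] : 0 < s56emg_h C X V := by
  haveI : Finite (X →ₗ[MonoidAlgebra ℤ C] V) := Finite.of_injective _ DFunLike.coe_injective
  exact Nat.card_pos

theorem s56emg_h_of_subsingleton [Subsingleton V] : s56emg_h C X V = 1 := by
  haveI : Subsingleton (X →ₗ[MonoidAlgebra ℤ C] V) :=
    ⟨fun f g => LinearMap.ext fun x => Subsingleton.elim _ _⟩
  haveI : Nonempty (X →ₗ[MonoidAlgebra ℤ C] V) := ⟨0⟩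
  exact Nat.card_unique

variable [Fintype C]

/-- multiplicativity on short exact sequences of modules killed by `p` -/
theorem s56emg_h_ses {p : ℕ} [Fact p.Prime] (hpC : ¬ p ∣ Fintype.card C)
    (hV : ∀ v : V, p • v = 0) (hV'' : ∀ v : V'', p • v = 0)
    (i : V' →ₗ[MonoidAlgebra ℤ C] V) (π : V →ₗ[MonoidAlgebra ℤ C] V'')
    (hi : Function.Injective i) (hex : Function.Exact i π) (hπ : Function.Surjective π) :
    s56emg_h C X V = s56emg_h C X V' * s56emg_h C X V'' := by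
  let Φ : (X →ₗ[MonoidAlgebra ℤ C] V) →+ (X →ₗ[MonoidAlgebra ℤ C] V'') :=
    AddMonoidHom.mk' (fun f => π ∘ₗ f) (fun f g => LinearMap.comp_add _ _ _)
  have hΦ : Function.Surjective Φ := fun f'' => s56emg_lift hpC hV hV'' π hπ f''
  have h1 : Nat.card Φ.ker * Φ.ker.index = Nat.card (X →ₗ[MonoidAlgebra ℤ C] V) :=
    AddSubgroup.card_mul_index _
  have h2 : Φ.ker.index = Nat.card (X →ₗ[MonoidAlgebra ℤ C] V'') := by
    rw [AddSubgroup.index_ker, AddMonoidHom.range_eq_top.mpr hΦ]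
    exact Nat.card_congr AddSubgroup.topEquiv.toEquiv
  have h3 : Nat.card Φ.ker = Nat.card (X →ₗ[MonoidAlgebra ℤ C] V') := by
    symm
    refine Nat.card_eq_of_bijective
      (fun h => (⟨i ∘ₗ h, ?_⟩ : Φ.ker)) ⟨?_, ?_⟩
    · rw [AddMonoidHom.mem_ker]
      show π ∘ₗ (i ∘ₗ h) = 0
      ext x
      exact hex.apply_apply_eq_zero _
    · intro h h' hh
      have : i ∘ₗ h = i ∘ₗ h' := congrArg Subtype.val hh
      ext x
      exact hi (LinearMap.congr_fun this x)
    · rintro ⟨f, hf⟩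
      rw [AddMonoidHom.mem_ker] at hf
      have hf' : ∀ x, π (f x) = 0 := fun x => LinearMap.congr_fun hf x
      have hr : ∀ x, f x ∈ LinearMap.range i := fun x => (hex (f x)).mp (hf' x)
      let e := LinearEquiv.ofInjective i hi
      refine ⟨e.symm.toLinearMap ∘ₗ (f.codRestrict (LinearMap.range i) hr), ?_⟩
      apply Subtype.ext
      ext x
      show i (e.symm ⟨f x, hr x⟩) = f x
      have := e.apply_symm_apply ⟨f x, hr x⟩
      exact congrArg Subtype.val this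
  unfold s56emg_h
  rw [← h1, h2, h3]

/-- kernel–range form -/
theorem s56emg_h_ker_range {p : ℕ} [Fact p.Prime] (hpC : ¬ p ∣ Fintype.card C)
    (hV : ∀ v : V, p • v = 0) (φ : V →ₗ[MonoidAlgebra ℤ C] V') :
    s56emg_h C X V = s56emg_h C X (LinearMap.ker φ) * s56emg_h C X (LinearMap.range φ) := by
  refine s56emg_h_ses X hpC hV ?_ (LinearMap.ker φ).subtype φ.rangeRestrict
    (Submodule.subtype_injective _) ?_ φ.surjective_rangeRestrict
  · rintro ⟨_, v, rfl⟩
    apply Subtype.ext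
    show p • φ v = 0
    rw [← map_nsmul, hV, map_zero]
  · intro v
    constructor
    · intro h
      exact ⟨⟨v, by
        have := congrArg Subtype.val h
        simpa using this⟩, rfl⟩
    · rintro ⟨w, rfl⟩
      apply Subtype.ext
      exact w.2

/-- multiplicativity along a six-term exact sequence of modules killed by `p` -/
theorem s56emg_h_six {p : ℕ} [Fact p.Prime] (hpC : ¬ p ∣ Fintype.card C)
    {V₁ V₂ V₃ V₄ V₅ V₆ : Type*}
    [AddCommGroup V₁] [Module (MonoidAlgebra ℤ C) V₁] [AddCommGroup V₂] [Module (MonoidAlgebra ℤ C) V₂]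
    [AddCommGroup V₃] [Module (MonoidAlgebra ℤ C) V₃] [AddCommGroup V₄] [Module (MonoidAlgebra ℤ C) V₄]
    [AddCommGroup V₅] [Module (MonoidAlgebra ℤ C) V₅] [AddCommGroup V₆] [Module (MonoidAlgebra ℤ C) V₆]
    (h₁ : ∀ v : V₁, p • v = 0) (h₂ : ∀ v : V₂, p • v = 0) (h₃ : ∀ v : V₃, p • v = 0)
    (h₄ : ∀ v : V₄, p • v = 0) (h₅ : ∀ v : V₅, p • v = 0)
    (φ₁ : V₁ →ₗ[MonoidAlgebra ℤ C] V₂) (φ₂ : V₂ →ₗ[MonoidAlgebra ℤ C] V₃)
    (φ₃ : V₃ →ₗ[MonoidAlgebra ℤ C] V₄) (φ₄ : V₄ →ₗ[MonoidAlgebra ℤ C] V₅)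
    (φ₅ : V₅ →ₗ[MonoidAlgebra ℤ C] V₆)
    (i₁ : Function.Injective φ₁) (e₁₂ : Function.Exact φ₁ φ₂) (e₂₃ : Function.Exact φ₂ φ₃)
    (e₃₄ : Function.Exact φ₃ φ₄) (e₄₅ : Function.Exact φ₄ φ₅) (s₅ : Function.Surjective φ₅) :
    s56emg_h C X V₁ * s56emg_h C X V₃ * s56emg_h C X V₅ =
      s56emg_h C X V₂ * s56emg_h C X V₄ * s56emg_h C X V₆ := by
  have k₁ := s56emg_h_ker_range X hpC h₁ φ₁
  have k₂ := s56emg_h_ker_range X hpC h₂ φ₂
  have k₃ := s56emg_h_ker_range X hpC h₃ φ₃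
  have k₄ := s56emg_h_ker_range X hpC h₄ φ₄
  have k₅ := s56emg_h_ker_range X hpC h₅ φ₅
  have r₁ : s56emg_h C X (LinearMap.range φ₁) = s56emg_h C X (LinearMap.ker φ₂) :=
    s56emg_h_congr X (LinearEquiv.ofEq _ _ (LinearMap.exact_iff.mp e₁₂).symm)
  have r₂ : s56emg_h C X (LinearMap.range φ₂) = s56emg_h C X (LinearMap.ker φ₃) :=
    s56emg_h_congr X (LinearEquiv.ofEq _ _ (LinearMap.exact_iff.mp e₂₃).symm)
  have r₃ : s56emg_h C X (LinearMap.range φ₃) = s56emg_h C X (LinearMap.ker φ₄) :=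
    s56emg_h_congr X (LinearEquiv.ofEq _ _ (LinearMap.exact_iff.mp e₃₄).symm)
  have r₄ : s56emg_h C X (LinearMap.range φ₄) = s56emg_h C X (LinearMap.ker φ₅) :=
    s56emg_h_congr X (LinearEquiv.ofEq _ _ (LinearMap.exact_iff.mp e₄₅).symm)
  have r₅ : s56emg_h C X (LinearMap.range φ₅) = s56emg_h C X V₆ :=
    s56emg_h_congr X ((LinearEquiv.ofEq _ _ (LinearMap.range_eq_top.mpr s₅)).trans
      Submodule.topEquiv)
  have z₁ : s56emg_h C X (LinearMap.ker φ₁) = 1 := by
    haveI : Subsingleton (LinearMap.ker φ₁) := by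
      rw [LinearMap.ker_eq_bot.mpr i₁]; infer_instance
    exact s56emg_h_of_subsingleton X
  rw [k₁, k₂, k₃, k₄, k₅, z₁, r₁, r₂, r₃, r₄, r₅]
  ring

end count

end Fermat.Agent.S56
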